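import Fermat.Agent.PoissonDirichlet.Limit

/-!
# The induction on the number of draws

The first draw is a prime `p` with weight `log p / log N` and leaves `m ≤ N / p`; on the average
over `m` the other draws are uniform, and `log p / log N` is uniform by Mertens' theorem.
-/

set_option autoImplicit false

noncomputable section

namespace FA.PoissonDirichlet

open Finset Filter MeasureTheory
open FA.ErdosKac (primesUpTo mem_primesUpTo)
open scoped Topology

/-- The first draw with `log N` in place of `log n`. -/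
def scaledDraw (k : ℕ) (f : (Fin (k + 1) → ℝ) → ℝ) (N n : ℕ) : ℝ :=
  (∑ p ∈ n.primeFactors, Real.log p *
    sizeBiased k (fun v => f (Fin.cons (Real.log p / Real.log N) v)) (n / p)) / Real.log N

theorem log_div_mem_of_le {N p : ℕ} (hp : p ∈ primesUpTo N) :
    Real.log p / Real.log N ∈ Set.Icc (0 : ℝ) 1 := by
  obtain ⟨hpp, hpN⟩ := mem_primesUpTo.1 hp
  exact ⟨div_nonneg (Real.log_natCast_nonneg p) (Real.log_natCast_nonneg N),
    div_le_one_of_le₀ (Real.log_le_log (Nat.cast_pos.2 hpp.pos) (Nat.cast_le.2 hpN))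
      (Real.log_natCast_nonneg N)⟩

theorem mem_primesUpTo_of_mem_primeFactors {N n p : ℕ} (hn : n ≤ N) (hp : p ∈ n.primeFactors) :
    p ∈ primesUpTo N :=
  mem_primesUpTo.2 ⟨Nat.prime_of_mem_primeFactors hp, (Nat.le_of_mem_primeFactors hp).trans hn⟩

theorem sum_log_primeFactors_le (n : ℕ) :
    ∑ p ∈ n.primeFactors, Real.log p ≤ Real.log n := by
  rw [log_eq_sum_factorization n]
  refine sum_le_sum fun p hp => le_mul_of_one_le_left (Real.log_natCast_nonneg p) ?_
  obtain ⟨hpp, hd, hn⟩ := Nat.mem_primeFactors.1 hp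
  exact Nat.one_le_cast.2 (hpp.factorization_pos_of_dvd hn hd)

theorem abs_scaledDraw_le {k : ℕ} {f : (Fin (k + 1) → ℝ) → ℝ} {B : ℝ} (hB0 : 0 ≤ B)
    (hB : ∀ u ∈ Set.Icc (0 : Fin (k + 1) → ℝ) 1, |f u| ≤ B) {N n : ℕ} (hn0 : 0 < n)
    (hn : n ≤ N) : |scaledDraw k f N n| ≤ B := by
  rw [scaledDraw, abs_div, abs_of_nonneg (Real.log_natCast_nonneg N)]
  refine div_le_of_le_mul₀ (Real.log_natCast_nonneg N) hB0 ?_
  refine (abs_sum_le_sum_abs _ _).trans (le_trans (sum_le_sum (g := fun p : ℕ => B * Real.log p)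
    fun p hp => ?_) ?_)
  · rw [abs_mul, abs_of_nonneg (Real.log_natCast_nonneg p), mul_comm B]
    exact mul_le_mul_of_nonneg_left (abs_sizeBiased_le fun v hv => hB _ (cons_mem_Icc
      (log_div_mem_of_le (mem_primesUpTo_of_mem_primeFactors hn hp)) hv))
      (Real.log_natCast_nonneg p)
  · rw [← mul_sum]
    exact mul_le_mul_of_nonneg_left ((sum_log_primeFactors_le n).trans
      (Real.log_le_log (Nat.cast_pos.2 hn0) (Nat.cast_le.2 hn))) hB0

/-- For `n > c N` the draw changes little. -/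
theorem abs_sizeBiased_sub_scaledDraw_le {k : ℕ} {f : (Fin (k + 1) → ℝ) → ℝ} {B η δ : ℝ}
    (hB : ∀ u ∈ Set.Icc (0 : Fin (k + 1) → ℝ) 1, |f u| ≤ B) (hη : 0 ≤ η)
    (hmod : ∀ s ∈ Set.Icc (0 : ℝ) 1, ∀ t ∈ Set.Icc (0 : ℝ) 1, |s - t| ≤ δ →
      ∀ v ∈ Set.Icc (0 : Fin k → ℝ) 1, |f (Fin.cons s v) - f (Fin.cons t v)| ≤ η)
    {N n : ℕ} (hn1 : 1 < n) (hn : n ≤ N)
    (hclose : (Real.log N - Real.log n) / Real.log N ≤ δ) :
    |sizeBiased (k + 1) f n - scaledDraw k f N n| ≤
      B * ((Real.log N - Real.log n) / Real.log N) + η +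
        B * ((Real.log n - ∑ p ∈ n.primeFactors, Real.log p) / Real.log N) := by
  have hl := log_pos_of_one_lt hn1
  have hL : 0 < Real.log N := log_pos_of_one_lt (hn1.trans_le hn)
  have hle : Real.log n ≤ Real.log N :=
    Real.log_le_log (Nat.cast_pos.2 (by omega)) (Nat.cast_le.2 hn)
  obtain ⟨v, hv⟩ : ∃ v : ℕ → ℝ, v = fun p : ℕ => (n.factorization p : ℝ) := ⟨_, rfl⟩
  obtain ⟨G, hG⟩ : ∃ G : ℝ → ℕ → ℝ,
      G = fun (t : ℝ) (p : ℕ) => sizeBiased k (fun w => f (Fin.cons t w)) (n / p) := ⟨_, rfl⟩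
  have e : sizeBiased (k + 1) f n - scaledDraw k f N n =
      ∑ p ∈ n.primeFactors, v p * Real.log p / Real.log n *
          ((Real.log N - Real.log n) / Real.log N) * G (Real.log p / Real.log n) p +
        ∑ p ∈ n.primeFactors, v p * Real.log p / Real.log N *
          (G (Real.log p / Real.log n) p - G (Real.log p / Real.log N) p) +
        ∑ p ∈ n.primeFactors, (v p - 1) * Real.log p / Real.log N *
          G (Real.log p / Real.log N) p := by
    rw [sizeBiased, if_neg (not_le.2 hn1), scaledDraw, sum_div, ← sum_sub_distrib,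
      ← sum_add_distrib, ← sum_add_distrib, hv, hG]
    refine sum_congr rfl fun p _ => ?_
    field_simp
    ring
  have hv1 : ∀ p ∈ n.primeFactors, 1 ≤ v p := fun p hp => by
    obtain ⟨hpp, hd, hne⟩ := Nat.mem_primeFactors.1 hp
    rw [hv]
    exact Nat.one_le_cast.2 (hpp.factorization_pos_of_dvd hne hd)
  have hGn : ∀ p ∈ n.primeFactors, |G (Real.log p / Real.log n) p| ≤ B := fun p hp => by
    rw [hG]
    exact abs_sizeBiased_le fun w hw => hB _ (cons_mem_Icc (log_div_mem hp) hw)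
  have hGN : ∀ p ∈ n.primeFactors, |G (Real.log p / Real.log N) p| ≤ B := fun p hp => by
    rw [hG]
    exact abs_sizeBiased_le fun w hw => hB _
      (cons_mem_Icc (log_div_mem_of_le (mem_primesUpTo_of_mem_primeFactors hn hp)) hw)
  have hGd : ∀ p ∈ n.primeFactors,
      |G (Real.log p / Real.log n) p - G (Real.log p / Real.log N) p| ≤ η := fun p hp => by
    rw [hG]
    refine abs_sizeBiased_sub_le (hmod _ (log_div_mem hp) _
      (log_div_mem_of_le (mem_primesUpTo_of_mem_primeFactors hn hp)) (le_trans ?_ hclose))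
    have e2 : Real.log p / Real.log n - Real.log p / Real.log N =
        Real.log p / Real.log n * ((Real.log N - Real.log n) / Real.log N) := by field_simp
    rw [e2, abs_mul, abs_of_nonneg (log_div_mem hp).1,
      abs_of_nonneg (div_nonneg (sub_nonneg.2 hle) hL.le)]
    exact mul_le_of_le_one_left (div_nonneg (sub_nonneg.2 hle) hL.le) (log_div_mem hp).2
  have hsum : ∑ p ∈ n.primeFactors, v p * Real.log p = Real.log n := by
    rw [hv, ← log_eq_sum_factorization]
  have hbd : ∀ (w z : ℕ → ℝ) (Z : ℝ), (∀ p ∈ n.primeFactors, 0 ≤ w p) →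
      (∀ p ∈ n.primeFactors, |z p| ≤ Z) →
      |∑ p ∈ n.primeFactors, w p * z p| ≤ (∑ p ∈ n.primeFactors, w p) * Z := fun w z Z hw hz => by
    rw [sum_mul]
    refine (abs_sum_le_sum_abs _ _).trans (sum_le_sum fun p hp => ?_)
    rw [abs_mul, abs_of_nonneg (hw p hp)]
    exact mul_le_mul_of_nonneg_left (hz p hp) (hw p hp)
  have hlp : ∀ p : ℕ, 0 ≤ Real.log p := fun p => Real.log_natCast_nonneg p
  rw [e]
  refine (abs_add_three _ _ _).trans (add_le_add (add_le_add ?_ ?_) ?_)
  · refine (hbd _ _ B (fun p hp => mul_nonneg (div_nonneg (mul_nonneg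
      (zero_le_one.trans (hv1 p hp)) (hlp p)) hl.le) (div_nonneg (sub_nonneg.2 hle) hL.le))
      hGn).trans_eq ?_
    rw [← sum_mul, ← sum_div, hsum, div_self hl.ne', one_mul, mul_comm]
  · refine (hbd _ _ η (fun p hp => div_nonneg (mul_nonneg (zero_le_one.trans (hv1 p hp)) (hlp p))
      hL.le) hGd).trans ?_
    rw [← sum_div, hsum]
    exact mul_le_of_le_one_left hη (div_le_one_of_le₀ hle hL.le)
  · refine (hbd _ _ B (fun p hp => div_nonneg (mul_nonneg (sub_nonneg.2 (hv1 p hp)) (hlp p))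
      hL.le) hGN).trans_eq ?_
    rw [← sum_div, mul_comm]
    simp only [sub_mul, one_mul, sum_sub_distrib, hsum]

theorem sum_scaledDraw_eq (k : ℕ) (f : (Fin (k + 1) → ℝ) → ℝ) (N : ℕ) :
    ∑ n ∈ Icc 1 N, scaledDraw k f N n =
      (∑ p ∈ primesUpTo N, Real.log p *
        drawSum k (fun v => f (Fin.cons (Real.log p / Real.log N) v)) (N / p)) / Real.log N := by
  simp only [scaledDraw, ← sum_div, drawSum, mul_sum]
  rw [sum_primeFactors_eq N fun p m => Real.log p *
    sizeBiased k (fun v => f (Fin.cons (Real.log p / Real.log N) v)) m]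

/-- The scaled draws tend to the mean over the cube. -/
theorem tendsto_sum_scaledDraw {k : ℕ} (ih : ∀ g : (Fin k → ℝ) → ℝ, Continuous g →
      Tendsto (fun N : ℕ => drawSum k g N / N) atTop (𝓝 (cubeMean k g)))
    {f : (Fin (k + 1) → ℝ) → ℝ} (hf : Continuous f) :
    Tendsto (fun N : ℕ => (∑ n ∈ Icc 1 N, scaledDraw k f N n) / N) atTop
      (𝓝 (cubeMean (k + 1) f)) := by
  obtain ⟨φ, hφ⟩ : ∃ φ : ℝ → ℝ, φ = fun t : ℝ => cubeMean k fun v => f (Fin.cons t v) := ⟨_, rfl⟩
  have hφc : Continuous φ := hφ ▸ continuous_cubeMean_cons hf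
  have hlim : Tendsto (primeAvg φ) atTop (𝓝 (cubeMean (k + 1) f)) := by
    rw [cubeMean_succ hf]
    have := tendsto_primeAvg hφc
    rwa [hφ] at this ⊢
  obtain ⟨B, hB0, hB⟩ := exists_bound hf
  obtain ⟨C₁, hC₁⟩ := ErdosKac.exists_abs_sum_log_div_sub_le
  refine Metric.tendsto_nhds.2 fun ε hε => ?_
  obtain ⟨C, hC⟩ := exists_uniform ih hf (show 0 < ε / 8 by positivity)
  obtain ⟨K, hK⟩ : ∃ K : ℝ, K = ε / 8 * |C₁| + (|C| + B) * Real.log 4 := ⟨_, rfl⟩
  have hK0 : 0 ≤ K := by
    rw [hK]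
    have := Real.log_nonneg (show (1 : ℝ) ≤ 4 by norm_num)
    positivity
  filter_upwards [Metric.tendsto_nhds.1 hlim (ε / 4) (by positivity),
    tendsto_log_nat.eventually_gt_atTop (8 * K / ε), eventually_gt_atTop 1] with N hN hLK hN1
  rw [div_lt_iff₀ hε] at hLK
  rw [Real.dist_eq] at hN ⊢
  have hL : 0 < Real.log N := log_pos_of_one_lt hN1
  have hN0 : (0 : ℝ) < N := Nat.cast_pos.2 (by omega)
  have hterm : ∀ p ∈ primesUpTo N,
      |Real.log p * drawSum k (fun v => f (Fin.cons (Real.log p / Real.log N) v)) (N / p) -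
        N * (Real.log p / p * φ (Real.log p / Real.log N))| ≤
        ε / 8 * N * (Real.log p / p) + (|C| + B) * Real.log p := fun p hp => by
    have hmem := log_div_mem_of_le hp
    have hp0 : (0 : ℝ) < p := Nat.cast_pos.2 (mem_primesUpTo.1 hp).1.pos
    have hfl : ((N / p : ℕ) : ℝ) ≤ N / p := Nat.cast_div_le
    have hfl' : (N : ℝ) / p - 1 ≤ ((N / p : ℕ) : ℝ) := by
      have h := Nat.lt_floor_add_one ((N : ℝ) / p)
      rw [Nat.floor_div_natCast, Nat.floor_natCast] at h
      linarith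
    have h1 := hC (N / p) _ hmem
    have h2 : |φ (Real.log p / Real.log N)| ≤ B := hφ ▸
      abs_cubeMean_le (f := fun v => f (Fin.cons (Real.log p / Real.log N) v))
        fun v hv => hB _ (cons_mem_Icc hmem hv)
    have hrw : Real.log p * drawSum k (fun v => f (Fin.cons (Real.log p / Real.log N) v)) (N / p) -
        N * (Real.log p / p * φ (Real.log p / Real.log N)) =
        Real.log p * ((drawSum k (fun v => f (Fin.cons (Real.log p / Real.log N) v)) (N / p) -
          ((N / p : ℕ) : ℝ) * φ (Real.log p / Real.log N)) +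
          (((N / p : ℕ) : ℝ) - N / p) * φ (Real.log p / Real.log N)) := by ring
    rw [hrw, abs_mul, abs_of_nonneg (Real.log_natCast_nonneg p)]
    refine (mul_le_mul_of_nonneg_left ((abs_add_le _ _).trans (add_le_add
      (show _ ≤ ε / 8 * (N / p) + |C| from ?_) (show _ ≤ B from ?_)))
      (Real.log_natCast_nonneg p)).trans_eq (by ring)
    · rw [hφ]
      exact h1.trans (add_le_add (mul_le_mul_of_nonneg_left hfl (by positivity)) (le_abs_self C))
    · rw [abs_mul]
      refine (mul_le_mul (abs_le.2 ⟨by linarith, by linarith⟩) h2 (abs_nonneg _)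
        zero_le_one).trans (one_mul B).le
  have hdiff : |(∑ n ∈ Icc 1 N, scaledDraw k f N n) - N * primeAvg φ N| ≤
      (ε / 8 * N * (Real.log N + |C₁|) + (|C| + B) * (Real.log 4 * N)) / Real.log N := by
    rw [sum_scaledDraw_eq, primeAvg, ← mul_div_assoc, div_sub_div_same, abs_div, abs_of_pos hL,
      mul_sum, ← sum_sub_distrib]
    refine div_le_div_of_nonneg_right ((abs_sum_le_sum_abs _ _).trans
      ((sum_le_sum hterm).trans ?_)) hL.le
    rw [sum_add_distrib, ← mul_sum, ← mul_sum]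
    refine add_le_add (mul_le_mul_of_nonneg_left ?_ (by positivity))
      (mul_le_mul_of_nonneg_left (sum_log_primes_le N) (by positivity))
    linarith [(abs_le.1 (hC₁ N (by omega))).2, le_abs_self C₁]
  have hK' : (ε / 8 * N * (Real.log N + |C₁|) + (|C| + B) * (Real.log 4 * N)) / Real.log N ≤
      ε / 4 * N := by
    rw [div_le_iff₀ hL]
    have h1 := mul_le_mul_of_nonneg_left hLK.le hN0.le
    rw [hK] at h1
    linarith
  have h := hdiff.trans hK'
  rw [show (∑ n ∈ Icc 1 N, scaledDraw k f N n) / N - cubeMean (k + 1) f =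
      ((∑ n ∈ Icc 1 N, scaledDraw k f N n) - N * primeAvg φ N) / N +
        (primeAvg φ N - cubeMean (k + 1) f) by field_simp; ring]
  refine (abs_add_le _ _).trans_lt ?_
  rw [abs_div, abs_of_pos hN0]
  linarith [(div_le_iff₀ hN0).2 h]

/-- **Donnelly and Grimmett.** -/
theorem tendsto_drawSum : ∀ (k : ℕ) (f : (Fin k → ℝ) → ℝ), Continuous f →
    Tendsto (fun N : ℕ => drawSum k f N / N) atTop (𝓝 (cubeMean k f)) := by
  intro k
  induction k with
  | zero =>
    intro f _
    refine tendsto_const_nhds.congr' ?_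
    filter_upwards [eventually_ge_atTop 1] with N hN
    have e : cubeMean 0 f = f Fin.elim0 := by
      rw [cubeMean_eq, Measure.pi_of_empty _ (Fin.elim0 : Fin 0 → ℝ), integral_dirac]
    rw [e]
    simp only [drawSum, sizeBiased, sum_const, Nat.card_Icc, Nat.add_sub_cancel, nsmul_eq_mul]
    rw [mul_div_cancel_left₀ _ (Nat.cast_ne_zero.2 (by omega))]
  | succ k ih =>
    intro f hf
    refine Metric.tendsto_nhds.2 fun ε hε => ?_
    obtain ⟨B, hB0, hB⟩ := exists_bound hf
    obtain ⟨δ, hδ, hmod⟩ := exists_modulus hf (show 0 < ε / 8 by positivity)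
    obtain ⟨C₀, hC₀0, hC₀⟩ := exists_excess_le
    obtain ⟨c, hc⟩ : ∃ c : ℝ, c = min 1 (ε / (16 * (B + 1))) := ⟨_, rfl⟩
    have hc0 : 0 < c := hc ▸ lt_min one_pos (by positivity)
    have hcB : 2 * B * c ≤ ε / 8 := by
      have h1 : c ≤ ε / (16 * (B + 1)) := hc ▸ min_le_right _ _
      rw [le_div_iff₀ (by positivity)] at h1
      linarith
    have hlogc : 0 ≤ -Real.log c := neg_nonneg.2 (Real.log_nonpos hc0.le (hc ▸ min_le_left _ _))
    filter_upwards [Metric.tendsto_nhds.1 (tendsto_sum_scaledDraw ih hf) (ε / 8) (by positivity),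
      tendsto_natCast_atTop_atTop.eventually_ge_atTop (1 / c),
      tendsto_log_nat.eventually_ge_atTop (-Real.log c / δ),
      tendsto_log_nat.eventually_ge_atTop (8 * B * -Real.log c / ε),
      tendsto_log_nat.eventually_ge_atTop (8 * B * C₀ / ε),
      eventually_gt_atTop 1] with N hN hNc hLδ hLη hLC hN1
    have hL : 0 < Real.log N := log_pos_of_one_lt hN1
    have hN0 : (0 : ℝ) < N := Nat.cast_pos.2 (by omega)
    rw [div_le_iff₀ hc0] at hNc
    rw [div_le_iff₀ hδ] at hLδ
    rw [div_le_iff₀ hε] at hLη hLC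
    obtain ⟨R, hR⟩ : ∃ R : ℕ → ℝ, R = fun n : ℕ =>
        B * ((Real.log n - ∑ p ∈ n.primeFactors, Real.log p) / Real.log N) := ⟨_, rfl⟩
    have hterm : ∀ n ∈ Icc 1 N, |sizeBiased (k + 1) f n - scaledDraw k f N n| ≤
        (if (n : ℝ) ≤ c * N then 2 * B else 0) + ε / 4 + R n := fun n hn => by
      obtain ⟨h1, h2⟩ := mem_Icc.1 hn
      have hR0 : 0 ≤ R n := hR ▸ mul_nonneg hB0
        (div_nonneg (sub_nonneg.2 (sum_log_primeFactors_le n)) hL.le)
      split_ifs with h
      · refine (abs_sub _ _).trans ?_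
        linarith [abs_sizeBiased_le (n := n) hB, abs_scaledDraw_le hB0 hB h1 h2]
      · rw [not_le] at h
        have hn1 : 1 < n := Nat.one_lt_cast.1 (lt_of_le_of_lt (by linarith) h)
        have hlog : Real.log N - Real.log n ≤ -Real.log c := by
          have := Real.log_le_log (mul_pos hc0 hN0) h.le
          rw [Real.log_mul hc0.ne' hN0.ne'] at this
          linarith
        have hclose : (Real.log N - Real.log n) / Real.log N ≤ δ := by
          rw [div_le_iff₀ hL]
          linarith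
        refine (abs_sizeBiased_sub_scaledDraw_le hB (by positivity) hmod hn1 h2 hclose).trans ?_
        have : B * ((Real.log N - Real.log n) / Real.log N) ≤ ε / 8 := by
          rw [← mul_div_assoc, div_le_iff₀ hL]
          have := mul_le_mul_of_nonneg_left hlog hB0
          linarith
        rw [hR]
        linarith
    have hsmall : ∑ n ∈ Icc 1 N, (if (n : ℝ) ≤ c * N then 2 * B else 0) ≤ 2 * B * c * N := by
      rw [← sum_filter, sum_const, nsmul_eq_mul,
        show 2 * B * c * N = c * N * (2 * B) by ring]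
      refine mul_le_mul_of_nonneg_right ?_ (by positivity)
      have hsub : ((Icc 1 N).filter fun n : ℕ => (n : ℝ) ≤ c * N).card ≤ ⌊c * (N : ℝ)⌋₊ := by
        refine (card_le_card (t := Icc 1 ⌊c * (N : ℝ)⌋₊) fun n hn => ?_).trans (by simp)
        obtain ⟨hn1, hn2⟩ := mem_filter.1 hn
        exact mem_Icc.2 ⟨(mem_Icc.1 hn1).1, Nat.le_floor hn2⟩
      exact (Nat.cast_le.2 hsub).trans (Nat.floor_le (by positivity))
    have hRsum : ∑ n ∈ Icc 1 N, R n ≤ ε / 8 * N := by
      rw [hR, ← mul_sum, ← sum_div, ← mul_div_assoc, div_le_iff₀ hL]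
      have h1 := mul_le_mul_of_nonneg_left (hC₀ N) hB0
      have h2 := mul_le_mul_of_nonneg_left hLC hN0.le
      linarith
    have hmain : |drawSum (k + 1) f N - ∑ n ∈ Icc 1 N, scaledDraw k f N n| ≤ ε / 2 * N := by
      rw [drawSum, ← sum_sub_distrib]
      refine (abs_sum_le_sum_abs _ _).trans ((sum_le_sum hterm).trans ?_)
      simp only [sum_add_distrib, sum_const, Nat.card_Icc, Nat.add_sub_cancel, nsmul_eq_mul]
      have := mul_le_mul_of_nonneg_right hcB hN0.le
      linarith
    rw [Real.dist_eq] at hN ⊢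
    rw [show drawSum (k + 1) f N / N - cubeMean (k + 1) f =
      (drawSum (k + 1) f N - ∑ n ∈ Icc 1 N, scaledDraw k f N n) / N +
        ((∑ n ∈ Icc 1 N, scaledDraw k f N n) / N - cubeMean (k + 1) f) by field_simp; ring]
    refine (abs_add_le _ _).trans_lt ?_
    rw [abs_div, abs_of_pos hN0]
    linarith [(div_le_iff₀ hN0).2 hmain]

end FA.PoissonDirichlet

end
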