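import Fermat.Agent.PoissonDirichlet.SizeBiased
import Mathlib.MeasureTheory.Order.Lattice
import Mathlib.MeasureTheory.Constructions.BorelSpace.Order
import Mathlib.Topology.MetricSpace.Pseudo.Constructions

/-!
# Ranks and stick breaking

`rankSeq j x` is the term of index `j` of a sequence arranged in decreasing order. The draws break
the unit stick into the `log p / log n`, and what they leave bounds the error in every rank.
-/

set_option autoImplicit false

noncomputable section

namespace FA.PoissonDirichlet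

open Finset

/-- The `j`th largest term of a sequence, from `j = 0`. -/
def rankSeq (j : ℕ) (x : ℕ → ℝ) : ℝ :=
  ⨆ S : {S : Finset ℕ // S.card = j + 1},
    S.1.inf' (card_pos.1 (S.2.symm ▸ Nat.succ_pos j)) x

instance (j : ℕ) : Nonempty {S : Finset ℕ // S.card = j + 1} :=
  ⟨⟨range (j + 1), card_range _⟩⟩

theorem bddAbove_inf' {j : ℕ} {x : ℕ → ℝ} {b : ℝ} (hb : ∀ i, x i ≤ b) :
    BddAbove (Set.range fun S : {S : Finset ℕ // S.card = j + 1} =>
      S.1.inf' (card_pos.1 (S.2.symm ▸ Nat.succ_pos j)) x) := by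
  refine ⟨b, ?_⟩
  rintro _ ⟨S, rfl⟩
  obtain ⟨i, hi⟩ := card_pos.1 (S.2.symm ▸ Nat.succ_pos j : 0 < S.1.card)
  exact (inf'_le _ hi).trans (hb i)

theorem le_rankSeq {j : ℕ} {x : ℕ → ℝ} {b t : ℝ} (hb : ∀ i, x i ≤ b) {S : Finset ℕ}
    (hS : S.card = j + 1) (h : ∀ i ∈ S, t ≤ x i) : t ≤ rankSeq j x :=
  le_ciSup_of_le (bddAbove_inf' hb) ⟨S, hS⟩ (le_inf' _ _ h)

theorem rankSeq_le {j : ℕ} {x : ℕ → ℝ} {t : ℝ}
    (h : ∀ S : Finset ℕ, S.card = j + 1 → ∃ i ∈ S, x i ≤ t) : rankSeq j x ≤ t :=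
  ciSup_le fun S => by
    obtain ⟨i, hi, hit⟩ := h S.1 S.2
    exact (inf'_le _ hi).trans hit

theorem rankSeq_le_add {j : ℕ} {x y : ℕ → ℝ} {b c : ℝ} (hy : ∀ i, y i ≤ b)
    (h : ∀ i, x i ≤ y i + c) : rankSeq j x ≤ rankSeq j y + c := by
  refine rankSeq_le fun S hS => ?_
  obtain ⟨i, hi, hmin⟩ := exists_min_image S y (card_pos.1 (hS.symm ▸ Nat.succ_pos j))
  exact ⟨i, hi, (h i).trans (add_le_add (le_rankSeq hy hS hmin) le_rfl)⟩

theorem abs_rankSeq_sub_le {j : ℕ} {x y : ℕ → ℝ} {b b' c : ℝ} (hx : ∀ i, x i ≤ b)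
    (hy : ∀ i, y i ≤ b') (h : ∀ i, |x i - y i| ≤ c) : |rankSeq j x - rankSeq j y| ≤ c := by
  have h1 := rankSeq_le_add (j := j) (x := x) hy (c := c) fun i => by linarith [(abs_le.1 (h i)).2]
  have h2 := rankSeq_le_add (j := j) (x := y) hx (c := c) fun i => by linarith [(abs_le.1 (h i)).1]
  exact abs_le.2 ⟨by linarith, by linarith⟩

theorem rankSeq_comp {j : ℕ} {x : ℕ → ℝ} {b : ℝ} (hb : ∀ i, x i ≤ b) (σ : Equiv.Perm ℕ) :
    rankSeq j (fun i => x (σ i)) = rankSeq j x := by
  have key : ∀ (y : ℕ → ℝ) (τ : Equiv.Perm ℕ), (∀ i, y i ≤ b) →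
      rankSeq j (fun i => y (τ i)) ≤ rankSeq j y := fun y τ hy => by
    refine rankSeq_le fun S hS => ?_
    obtain ⟨i, hi, hmin⟩ := exists_min_image S (fun i => y (τ i))
      (card_pos.1 (hS.symm ▸ Nat.succ_pos j))
    refine ⟨i, hi, le_rankSeq hy (S := S.map τ.toEmbedding) (by rw [card_map, hS]) fun l hl => ?_⟩
    obtain ⟨l', hl', rfl⟩ := mem_map.1 hl
    exact hmin l' hl'
  refine le_antisymm (key x σ hb) ?_
  have h := key (fun i => x (σ i)) σ.symm fun i => hb _
  simpa only [Equiv.apply_symm_apply] using h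

theorem rankSeq_of_antitone {j : ℕ} {x : ℕ → ℝ} (hx : Antitone x) : rankSeq j x = x j := by
  refine le_antisymm (rankSeq_le fun S hS => ?_)
    (le_rankSeq (fun i => hx (Nat.zero_le i)) (card_range (j + 1)) fun i hi =>
      hx (Nat.lt_succ_iff.1 (mem_range.1 hi)))
  by_contra hc
  push Not at hc
  have : S ⊆ range j := fun i hi => mem_range.2 (by
    by_contra hij
    exact absurd (hx (not_lt.1 hij)) (not_le.2 (hc i hi)))
  have := card_le_card this
  rw [card_range] at this
  omega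

theorem rankSeq_mem_Icc {j : ℕ} {x : ℕ → ℝ} (hx : ∀ i, x i ∈ Set.Icc (0 : ℝ) 1) :
    rankSeq j x ∈ Set.Icc (0 : ℝ) 1 :=
  ⟨le_rankSeq (fun i => (hx i).2) (card_range (j + 1)) fun i _ => (hx i).1,
    rankSeq_le fun S hS => by
      obtain ⟨i, hi⟩ := card_pos.1 (hS.symm ▸ Nat.succ_pos j : 0 < S.card)
      exact ⟨i, hi, (hx i).2⟩⟩

theorem measurable_inf'_apply {S : Finset ℕ} (hS : S.Nonempty) :
    Measurable fun x : ℕ → ℝ => S.inf' hS x := by
  induction hS using Finset.Nonempty.cons_induction with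
  | singleton a => simpa using measurable_pi_apply a
  | cons a s ha hs ih =>
    simp only [inf'_cons hs]
    exact (measurable_pi_apply a).min ih

theorem measurable_rankSeq (j : ℕ) : Measurable (rankSeq j) :=
  Measurable.iSup fun S => measurable_inf'_apply (card_pos.1 (S.2.symm ▸ Nat.succ_pos j))

/-- The `i`th piece of the stick broken at the ratios `u`. -/
def stick (u : ℕ → ℝ) (i : ℕ) : ℝ := u i * ∏ l ∈ range i, (1 - u l)

/-- A tuple continued by zeros. -/
def pad (r : ℕ) (u : Fin r → ℝ) (i : ℕ) : ℝ := if h : i < r then u ⟨i, h⟩ else 0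

/-- What is left of the stick. -/
def residual (r : ℕ) (u : Fin r → ℝ) : ℝ := ∏ i, (1 - u i)

theorem stick_pad_of_le {r i : ℕ} (h : r ≤ i) (u : Fin r → ℝ) : stick (pad r u) i = 0 := by
  simp [stick, pad, not_lt.2 h]

theorem pad_mem {r : ℕ} {u : Fin r → ℝ} (hu : u ∈ Set.Icc (0 : Fin r → ℝ) 1) (i : ℕ) :
    pad r u i ∈ Set.Icc (0 : ℝ) 1 := by
  rw [pad]
  split_ifs with h
  · exact ⟨hu.1 _, hu.2 _⟩
  · exact ⟨le_rfl, zero_le_one⟩

theorem stick_mem {u : ℕ → ℝ} (hu : ∀ i, u i ∈ Set.Icc (0 : ℝ) 1) (i : ℕ) :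
    stick u i ∈ Set.Icc (0 : ℝ) 1 := by
  have h0 : ∀ l ∈ range i, 0 ≤ 1 - u l := fun l _ => sub_nonneg.2 (hu l).2
  exact ⟨mul_nonneg (hu i).1 (prod_nonneg h0), mul_le_one₀ (hu i).2 (prod_nonneg h0)
    (prod_le_one h0 fun l _ => by linarith [(hu l).1])⟩

theorem residual_nonneg {r : ℕ} {u : Fin r → ℝ} (hu : u ∈ Set.Icc (0 : Fin r → ℝ) 1) :
    0 ≤ residual r u :=
  prod_nonneg fun i _ => sub_nonneg.2 (hu.2 i)

theorem abs_stick_sub_le {u : ℕ → ℝ} (hu : ∀ i, u i ∈ Set.Icc (0 : ℝ) 1) (r i : ℕ) :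
    |stick (pad r fun l => u l) i - stick u i| ≤ residual r fun l => u l := by
  have hres : 0 ≤ residual r fun l => u l :=
    residual_nonneg ⟨fun l => (hu l).1, fun l => (hu l).2⟩
  rcases lt_or_ge i r with h | h
  · have e : ∀ l ≤ i, pad r (fun m => u m) l = u l := fun l hl => dif_pos (lt_of_le_of_lt hl h)
    rw [stick, stick, e i le_rfl, prod_congr rfl (g := fun l => 1 - u l) fun l hl => by
      rw [e l (mem_range.1 hl).le], sub_self, abs_zero]
    exact hres
  · rw [stick_pad_of_le h, zero_sub, abs_neg, abs_of_nonneg (stick_mem hu i).1, stick, residual,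
      Fin.prod_univ_eq_prod_range (fun l => 1 - u l) r]
    obtain ⟨d, rfl⟩ := Nat.exists_eq_add_of_le h
    rw [prod_range_add, mul_left_comm]
    refine mul_le_of_le_one_right (prod_nonneg fun l _ => sub_nonneg.2 (hu l).2)
      (mul_le_one₀ (hu _).2 (prod_nonneg fun l _ => sub_nonneg.2 (hu _).2)
        (prod_le_one (fun l _ => sub_nonneg.2 (hu _).2) fun l _ => by linarith [(hu (r + l)).1]))

theorem stick_pad_cons_zero {r : ℕ} (x : ℝ) (v : Fin r → ℝ) :
    stick (pad (r + 1) (Fin.cons x v)) 0 = x := by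
  simp [stick, pad]

theorem pad_cons_succ {r : ℕ} (x : ℝ) (v : Fin r → ℝ) (i : ℕ) :
    pad (r + 1) (Fin.cons x v) (i + 1) = pad r v i := by
  by_cases h : i < r
  · rw [pad, pad, dif_pos (Nat.succ_lt_succ h), dif_pos h]
    exact Fin.cons_succ (α := fun _ => ℝ) x v ⟨i, h⟩
  · rw [pad, pad, dif_neg fun h' => h (Nat.succ_lt_succ_iff.1 h'), dif_neg h]

theorem stick_pad_cons_succ {r : ℕ} (x : ℝ) (v : Fin r → ℝ) (i : ℕ) :
    stick (pad (r + 1) (Fin.cons x v)) (i + 1) = (1 - x) * stick (pad r v) i := by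
  have h0 : pad (r + 1) (Fin.cons x v) 0 = x := by simp [pad]
  simp only [stick, prod_range_succ', pad_cons_succ, h0]
  ring

theorem residual_cons {r : ℕ} (x : ℝ) (v : Fin r → ℝ) :
    residual (r + 1) (Fin.cons x v) = (1 - x) * residual r v := by
  simp [residual, Fin.prod_univ_succ]

theorem continuous_stick_pad (r i : ℕ) : Continuous fun u : Fin r → ℝ => stick (pad r u) i := by
  have hp : ∀ l, Continuous fun u : Fin r → ℝ => pad r u l := fun l => by
    by_cases h : l < r
    · simp only [pad, dif_pos h]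
      exact continuous_apply _
    · simp only [pad, dif_neg h]
      exact continuous_const
  exact (hp i).mul (continuous_finsetProd _ fun l _ => continuous_const.sub (hp l))

theorem continuous_rankSeq_stick (r j : ℕ) :
    Continuous fun u : Fin r → ℝ => rankSeq j (stick (pad r u)) := by
  refine continuous_iff_continuousAt.2 fun u₀ => ?_
  have hbdd : ∀ (u : Fin r → ℝ) (i : ℕ),
      stick (pad r u) i ≤ ∑ l ∈ range r, |stick (pad r u) l| := fun u i => by
    rcases lt_or_ge i r with h | h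
    · exact (le_abs_self _).trans (single_le_sum (f := fun l => |stick (pad r u) l|)
        (fun l _ => abs_nonneg _) (mem_range.2 h))
    · rw [stick_pad_of_le h]
      exact sum_nonneg fun l _ => abs_nonneg _
  have hd : Continuous fun u : Fin r → ℝ =>
      ∑ l ∈ range r, |stick (pad r u) l - stick (pad r u₀) l| :=
    continuous_finsetSum _ fun l _ => ((continuous_stick_pad r l).sub continuous_const).abs
  refine tendsto_iff_norm_sub_tendsto_zero.2 (squeeze_zero (fun u => norm_nonneg _) (fun u => ?_)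
    (by simpa using hd.tendsto u₀))
  refine abs_rankSeq_sub_le (hbdd u) (hbdd u₀) fun i => ?_
  rcases lt_or_ge i r with h | h
  · exact single_le_sum (f := fun l => |stick (pad r u) l - stick (pad r u₀) l|)
      (fun l _ => abs_nonneg _) (mem_range.2 h)
  · rw [stick_pad_of_le h, stick_pad_of_le h, sub_zero, abs_zero]
    exact sum_nonneg fun l _ => abs_nonneg _

/-- The list of the `log p / log n`, continued by zeros. -/
def logSeq (n : ℕ) (l : List ℕ) (i : ℕ) : ℝ := Real.log (l.getD i 1 : ℕ) / Real.log n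

/-- `log p / log n` for the prime factor `p` of `n` of index `j`, in decreasing order. -/
def topRatio (n j : ℕ) : ℝ := logSeq n n.primeFactorsList.reverse j

theorem getD_le_of_perm {n : ℕ} (hn : n ≠ 0) {l : List ℕ} (h : l.Perm n.primeFactorsList) (i : ℕ) :
    0 < l.getD i 1 ∧ l.getD i 1 ≤ n := by
  rcases lt_or_ge i l.length with hi | hi
  · rw [List.getD_eq_getElem _ _ hi]
    obtain ⟨hp, hd⟩ := (Nat.mem_primeFactorsList hn).1 (h.mem_iff.1 (List.getElem_mem hi))
    exact ⟨hp.pos, Nat.le_of_dvd (Nat.pos_of_ne_zero hn) hd⟩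
  · rw [List.getD_eq_default _ _ hi]
    exact ⟨one_pos, Nat.pos_of_ne_zero hn⟩

theorem logSeq_mem {n : ℕ} (hn : n ≠ 0) {l : List ℕ} (h : l.Perm n.primeFactorsList) (i : ℕ) :
    logSeq n l i ∈ Set.Icc (0 : ℝ) 1 :=
  ⟨div_nonneg (Real.log_natCast_nonneg _) (Real.log_natCast_nonneg n),
    div_le_one_of_le₀ (Real.log_le_log (Nat.cast_pos.2 (getD_le_of_perm hn h i).1)
      (Nat.cast_le.2 (getD_le_of_perm hn h i).2)) (Real.log_natCast_nonneg n)⟩

theorem topRatio_mem {n : ℕ} (hn : n ≠ 0) (j : ℕ) : topRatio n j ∈ Set.Icc (0 : ℝ) 1 :=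
  logSeq_mem hn (List.reverse_perm _) j

theorem antitone_getD_reverse (n : ℕ) :
    Antitone fun i => n.primeFactorsList.reverse.getD i 1 := by
  intro a b hab
  simp only
  have hone : ∀ i, 1 ≤ n.primeFactorsList.reverse.getD i 1 := fun i => by
    rcases lt_or_ge i n.primeFactorsList.reverse.length with hi | hi
    · rw [List.getD_eq_getElem _ _ hi]
      exact (Nat.prime_of_mem_primeFactorsList (List.mem_reverse.1 (List.getElem_mem hi))).one_le
    · rw [List.getD_eq_default _ _ hi]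
  rcases lt_or_ge b n.primeFactorsList.reverse.length with hb | hb
  · rw [List.getD_eq_getElem _ _ hb, List.getD_eq_getElem _ _ (lt_of_le_of_lt hab hb)]
    rcases eq_or_lt_of_le hab with rfl | h
    · exact le_rfl
    · exact List.pairwise_iff_getElem.1
        (List.pairwise_reverse.2 (Nat.primeFactorsList_sorted n).pairwise) a b _ hb h
  · rw [List.getD_eq_default _ _ hb]
    exact hone a

theorem rankSeq_logSeq_reverse (n j : ℕ) :
    rankSeq j (logSeq n n.primeFactorsList.reverse) = topRatio n j := by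
  refine rankSeq_of_antitone fun a b hab => div_le_div_of_nonneg_right (Real.log_le_log
    (Nat.cast_pos.2 ?_) (Nat.cast_le.2 (antitone_getD_reverse n hab))) (Real.log_natCast_nonneg n)
  rcases lt_or_ge b n.primeFactorsList.reverse.length with hi | hi
  · rw [List.getD_eq_getElem _ _ hi]
    exact (Nat.prime_of_mem_primeFactorsList (List.mem_reverse.1 (List.getElem_mem hi))).pos
  · rw [List.getD_eq_default _ _ hi]
    exact one_pos

theorem exists_perm_getD {l₁ l₂ : List ℕ} (h : l₁.Perm l₂) :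
    ∃ σ : Equiv.Perm ℕ, ∀ i, l₁.getD (σ i) 1 = l₂.getD i 1 := by
  induction h with
  | nil => exact ⟨1, fun i => rfl⟩
  | cons a _ ih =>
    obtain ⟨σ, hσ⟩ := ih
    refine ⟨⟨fun i => Nat.casesOn i 0 fun l => σ l + 1,
      fun i => Nat.casesOn i 0 fun l => σ.symm l + 1,
      fun i => by cases i <;> simp, fun i => by cases i <;> simp⟩, fun i => ?_⟩
    cases i with
    | zero => rfl
    | succ i => simpa using hσ i
  | swap a b l =>
    refine ⟨Equiv.swap 0 1, fun i => ?_⟩
    rcases i with _ | _ | i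
    · simp
    · simp
    · simp [Equiv.swap_apply_of_ne_of_ne]
  | trans _ _ ih₁ ih₂ =>
    obtain ⟨σ₁, h₁⟩ := ih₁
    obtain ⟨σ₂, h₂⟩ := ih₂
    exact ⟨σ₂.trans σ₁, fun i => by rw [Equiv.trans_apply, h₁, h₂]⟩

/-- The draws in list form. -/
theorem IsDraw.exists_list : ∀ {r n : ℕ} {u : Fin r → ℝ}, IsDraw r n u → 0 < n →
    ∃ (l : List ℕ) (m : ℕ), 0 < m ∧ (l ++ m.primeFactorsList).Perm n.primeFactorsList ∧
      (∀ i, stick (pad r u) i * Real.log n = Real.log (l.getD i 1 : ℕ)) ∧
      residual r u * Real.log n = Real.log m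
  | 0, n, u, _, hn => ⟨[], n, hn, List.Perm.refl _,
      fun i => by simp [stick, pad], by simp [residual]⟩
  | r + 1, n, u, h, hn => by
    rcases h with ⟨h1, -, -⟩ | ⟨h1, p, hp, hx, ht⟩
    · obtain rfl : n = 1 := by omega
      exact ⟨[], 1, one_pos, List.Perm.refl _, fun i => by simp, by simp⟩
    obtain ⟨hpp, hd, -⟩ := Nat.mem_primeFactors.1 hp
    have hnp : 0 < n / p := Nat.div_pos (Nat.le_of_dvd hn hd) hpp.pos
    obtain ⟨l, m, hm, hperm, hs, hres⟩ := ht.exists_list hnp
    have hlog : Real.log n = Real.log p + Real.log (n / p : ℕ) := by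
      rw [← Real.log_mul (Nat.cast_ne_zero.2 hpp.ne_zero) (Nat.cast_ne_zero.2 hnp.ne'),
        ← Nat.cast_mul, Nat.mul_div_cancel' hd]
    have hx' : u 0 * Real.log n = Real.log p := by
      rw [hx, div_mul_cancel₀ _ (log_pos_of_one_lt h1).ne']
    refine ⟨p :: l, m, hm, ?_, fun i => ?_, ?_⟩
    · have := Nat.perm_primeFactorsList_mul hpp.ne_zero hnp.ne'
      rw [Nat.mul_div_cancel' hd, Nat.primeFactorsList_prime hpp] at this
      exact ((List.perm_cons p).2 hperm).trans this.symm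
    · rw [← Fin.cons_self_tail u]
      cases i with
      | zero => rw [stick_pad_cons_zero, List.getD_cons_zero, hx']
      | succ i =>
        rw [stick_pad_cons_succ, List.getD_cons_succ, ← hs i]
        have e : (1 - u 0) * Real.log n = Real.log (n / p : ℕ) := by linarith
        rw [mul_right_comm, e, mul_comm]
    · rw [← Fin.cons_self_tail u, residual_cons, ← hres]
      have e : (1 - u 0) * Real.log n = Real.log (n / p : ℕ) := by linarith
      rw [mul_right_comm, e, mul_comm]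

/-- **The draws find the large prime factors.** -/
theorem abs_rankSeq_stick_sub_topRatio_le {r n : ℕ} {u : Fin r → ℝ} (h : IsDraw r n u)
    (hn : 1 < n) (j : ℕ) :
    |rankSeq j (stick (pad r u)) - topRatio n j| ≤ residual r u := by
  obtain ⟨l, m, hm, hperm, hs, hres⟩ := h.exists_list (by omega)
  have hn0 : n ≠ 0 := by omega
  obtain ⟨σ, hσ⟩ := exists_perm_getD (hperm.trans (List.reverse_perm _).symm)
  have hmem := logSeq_mem hn0 hperm
  have hcomp := rankSeq_comp (j := j) (x := logSeq n (l ++ m.primeFactorsList))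
    (fun i => (hmem i).2) σ
  rw [← rankSeq_logSeq_reverse,
    show logSeq n n.primeFactorsList.reverse = fun i => logSeq n (l ++ m.primeFactorsList) (σ i)
      from funext fun i => by simp only [logSeq, hσ], hcomp]
  have hstick : ∀ i, stick (pad r u) i = logSeq n l i := fun i =>
    (eq_div_iff (log_pos_of_one_lt hn).ne').2 (hs i)
  refine abs_rankSeq_sub_le (fun i => (stick_mem (pad_mem h.mem_Icc) i).2) (fun i => (hmem i).2)
    fun i => ?_
  rw [hstick i, logSeq, logSeq]
  rcases lt_or_ge i l.length with hi | hi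
  · rw [List.getD_append _ _ _ _ hi, sub_self, abs_zero]
    exact residual_nonneg h.mem_Icc
  · rw [List.getD_eq_default _ _ hi, List.getD_append_right _ _ _ _ hi, Nat.cast_one, Real.log_one,
      zero_div, zero_sub, abs_neg, abs_of_nonneg (div_nonneg (Real.log_natCast_nonneg _)
        (Real.log_natCast_nonneg n)), div_le_iff₀ (log_pos_of_one_lt hn), hres]
    obtain ⟨h1, h2⟩ := getD_le_of_perm hm.ne' (List.Perm.refl _) (i - l.length)
    exact Real.log_le_log (Nat.cast_pos.2 h1) (Nat.cast_le.2 h2)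

end FA.PoissonDirichlet

end
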