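import Fermat.Agent.PoissonDirichlet.DonnellyGrimmett
import Fermat.Agent.PoissonDirichlet.Ranks
import Mathlib.Analysis.SpecialFunctions.Integrals.Basic
import Mathlib.MeasureTheory.Integral.Pi
import Mathlib.Probability.ProductMeasure

/-!
# Billingsley's theorem

After `r` draws the rest of the stick has mean `2 ^ (-r)`, so the `k` largest `log p / log n` have
in the limit the law of the `k` largest pieces of a stick broken at uniform independent points.
-/

set_option autoImplicit false

noncomputable section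

namespace FA.PoissonDirichlet

open Finset Filter MeasureTheory
open scoped Topology

/-- Independent uniform variables. -/
def unitSeqMeasure : Measure (ℕ → ℝ) := Measure.infinitePi fun _ : ℕ => unitMeasure

instance : IsProbabilityMeasure unitSeqMeasure :=
  inferInstanceAs (IsProbabilityMeasure (Measure.infinitePi fun _ : ℕ => unitMeasure))

theorem ae_unitSeq_mem : ∀ᵐ u ∂unitSeqMeasure, ∀ i, u i ∈ Set.Icc (0 : ℝ) 1 := by
  refine ae_all_iff.2 fun i => ?_
  have h : ∀ᵐ x ∂unitMeasure, x ∈ Set.Icc (0 : ℝ) 1 := ae_restrict_mem measurableSet_Icc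
  exact (measurePreserving_eval_infinitePi (fun _ : ℕ => unitMeasure) i).quasiMeasurePreserving.ae h

theorem map_take_eq (r : ℕ) :
    unitSeqMeasure.map (fun u (i : Fin r) => u i) = Measure.pi fun _ : Fin r => unitMeasure := by
  refine (Measure.pi_eq fun t ht => ?_).symm
  rw [Measure.map_apply (f := fun (u : ℕ → ℝ) (i : Fin r) => u i)
    (measurable_pi_lambda _ fun i => measurable_pi_apply _) (MeasurableSet.univ_pi ht)]
  obtain ⟨T, hT⟩ : ∃ T : ℕ → Set ℝ, T = fun i => if h : i < r then t ⟨i, h⟩ else Set.univ :=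
    ⟨_, rfl⟩
  have e : (fun (u : ℕ → ℝ) (i : Fin r) => u i) ⁻¹' Set.univ.pi t =
      Set.pi (range r : Finset ℕ) T := by
    ext u
    simp only [Set.mem_preimage, Set.mem_pi, Set.mem_univ, true_implies, Finset.mem_coe, mem_range]
    exact ⟨fun h i hi => by simpa [hT, hi] using h ⟨i, hi⟩,
      fun h i => by simpa [hT] using h i i.2⟩
  rw [e, unitSeqMeasure, Measure.infinitePi_pi _ fun i hi => by
    simpa [hT, mem_range.1 hi] using ht ⟨i, mem_range.1 hi⟩, ← Fin.prod_univ_eq_prod_range
      (fun i => unitMeasure (T i)) r]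
  exact prod_congr rfl fun i _ => by simp [hT]

theorem integral_take {r : ℕ} {g : (Fin r → ℝ) → ℝ} (hg : Continuous g) :
    ∫ u, g (fun i => u i) ∂unitSeqMeasure = cubeMean r g := by
  rw [cubeMean_eq, ← map_take_eq]
  exact (integral_map (measurable_pi_lambda _ fun i => measurable_pi_apply _).aemeasurable
    hg.aestronglyMeasurable).symm

theorem continuous_residual (r : ℕ) : Continuous (residual r) :=
  continuous_finsetProd _ fun i _ => continuous_const.sub (continuous_apply i)

theorem cubeMean_residual (r : ℕ) : cubeMean r (residual r) = (1 / 2) ^ r := by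
  have h : ∫ x, (1 - x) ∂unitMeasure = 1 / 2 := by
    rw [unitMeasure, integral_Icc_eq_integral_Ioc, ← intervalIntegral.integral_of_le zero_le_one,
      intervalIntegral.integral_comp_sub_left (fun x => x) 1, integral_id]
    norm_num
  rw [cubeMean_eq, show residual r = fun u => ∏ i, (fun x : ℝ => 1 - x) (u i) from rfl,
    integral_fintype_prod_eq_pow (fun x : ℝ => 1 - x), Fintype.card_fin, h]

/-- Close points or large `ρ`. -/
theorem exists_gap_bound {K : ℕ} {F : (Fin K → ℝ) → ℝ} (hF : Continuous F) {η : ℝ} (hη : 0 < η) :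
    ∃ A B : ℝ, 0 ≤ A ∧ 0 ≤ B ∧ (∀ x ∈ Set.Icc (0 : Fin K → ℝ) 1, |F x| ≤ B) ∧
      ∀ x ∈ Set.Icc (0 : Fin K → ℝ) 1, ∀ y ∈ Set.Icc (0 : Fin K → ℝ) 1, ∀ ρ : ℝ, 0 ≤ ρ →
        (∀ j, |x j - y j| ≤ ρ) → |F x - F y| ≤ η + A * ρ := by
  obtain ⟨B, hB0, hB⟩ := exists_bound hF
  obtain ⟨δ, hδ, h⟩ := Metric.uniformContinuousOn_iff.1
    (isCompact_Icc.uniformContinuousOn_of_continuous hF.continuousOn) η hη
  refine ⟨2 * B / δ, B, by positivity, hB0, hB, fun x hx y hy ρ hρ hxy => ?_⟩
  have h0 : 0 ≤ 2 * B / δ * ρ := by positivity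
  rcases lt_or_ge ρ δ with hlt | hge
  · have hd : dist x y < δ := (dist_pi_lt_iff hδ).2 fun j => by
      rw [Real.dist_eq]
      exact (hxy j).trans_lt hlt
    have := h x hx y hy hd
    rw [Real.dist_eq] at this
    linarith
  · have h1 : 2 * B ≤ 2 * B / δ * ρ := by
      rw [div_mul_eq_mul_div, le_div_iff₀ hδ]
      exact mul_le_mul_of_nonneg_left hge (by positivity)
    refine (abs_sub _ _).trans ?_
    linarith [hB x hx, hB y hy]

/-- `F` at the `K` largest pieces after `r` draws. -/
def rankTest {K : ℕ} (F : (Fin K → ℝ) → ℝ) (r : ℕ) (u : Fin r → ℝ) : ℝ :=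
  F fun j => rankSeq j (stick (pad r u))

theorem continuous_rankTest {K : ℕ} {F : (Fin K → ℝ) → ℝ} (hF : Continuous F) (r : ℕ) :
    Continuous (rankTest F r) :=
  hF.comp (continuous_pi fun j => continuous_rankSeq_stick r j)

theorem rankSeq_stick_mem {K : ℕ} {u : ℕ → ℝ} (hu : ∀ i, u i ∈ Set.Icc (0 : ℝ) 1) :
    (fun j : Fin K => rankSeq j (stick u)) ∈ Set.Icc (0 : Fin K → ℝ) 1 :=
  ⟨fun _ => (rankSeq_mem_Icc (stick_mem hu)).1, fun _ => (rankSeq_mem_Icc (stick_mem hu)).2⟩

/-- The law of the `K` largest pieces. -/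
def stickLaw (K : ℕ) (F : (Fin K → ℝ) → ℝ) : ℝ :=
  ∫ u, F (fun j => rankSeq j (stick u)) ∂unitSeqMeasure

theorem abs_rankTest_mean_sub_le {K : ℕ} {F : (Fin K → ℝ) → ℝ} (hF : Continuous F) {η A B : ℝ}
    (hB : ∀ x ∈ Set.Icc (0 : Fin K → ℝ) 1, |F x| ≤ B)
    (hgap : ∀ x ∈ Set.Icc (0 : Fin K → ℝ) 1, ∀ y ∈ Set.Icc (0 : Fin K → ℝ) 1, ∀ ρ : ℝ, 0 ≤ ρ →
      (∀ j, |x j - y j| ≤ ρ) → |F x - F y| ≤ η + A * ρ) (r : ℕ) :
    |cubeMean r (rankTest F r) - stickLaw K F| ≤ η + A * (1 / 2) ^ r := by
  have hm : Measurable fun u : ℕ → ℝ => F fun j => rankSeq j (stick u) :=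
    hF.measurable.comp (measurable_pi_lambda _ fun j => (measurable_rankSeq j).comp
      (measurable_pi_lambda _ fun i => (measurable_pi_apply i).mul
        (Finset.measurable_prod _ fun l _ => measurable_const.sub (measurable_pi_apply l))))
  have hproj : Measurable fun (u : ℕ → ℝ) (i : Fin r) => u i :=
    measurable_pi_lambda _ fun i => measurable_pi_apply _
  have i1 : Integrable (fun u : ℕ → ℝ => F fun j => rankSeq j (stick u)) unitSeqMeasure :=
    Integrable.of_bound hm.aestronglyMeasurable B (ae_unitSeq_mem.mono fun u hu =>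
      hB _ (rankSeq_stick_mem hu))
  have i2 : Integrable (fun u : ℕ → ℝ => rankTest F r fun i => u i) unitSeqMeasure :=
    Integrable.of_bound ((continuous_rankTest hF r).measurable.comp hproj).aestronglyMeasurable B
      (ae_unitSeq_mem.mono fun u hu => hB _ (rankSeq_stick_mem
        (pad_mem ⟨fun i => (hu i).1, fun i => (hu i).2⟩)))
  have i0 : Integrable (fun u : ℕ → ℝ => residual r fun i => u i) unitSeqMeasure := by
    refine Integrable.of_bound ((continuous_residual r).measurable.comp hproj).aestronglyMeasurable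
      1 (ae_unitSeq_mem.mono fun u hu => ?_)
    rw [Real.norm_eq_abs, abs_of_nonneg (residual_nonneg (r := r)
      ⟨fun i => (hu i).1, fun i => (hu i).2⟩)]
    exact prod_le_one (fun i _ => sub_nonneg.2 (hu i).2) fun i _ => by linarith [(hu i).1]
  have i3 : Integrable (fun u : ℕ → ℝ => η + A * residual r fun i => u i) unitSeqMeasure :=
    (integrable_const η).add (i0.const_mul A)
  rw [← integral_take (continuous_rankTest hF r), stickLaw, ← integral_sub i2 i1]
  refine (abs_integral_le_integral_abs).trans ((integral_mono_ae (i2.sub i1).abs i3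
    (ae_unitSeq_mem.mono fun u hu => ?_)).trans_eq ?_)
  · have hv : (fun i : Fin r => u i) ∈ Set.Icc (0 : Fin r → ℝ) 1 :=
      ⟨fun i => (hu i).1, fun i => (hu i).2⟩
    refine hgap _ (rankSeq_stick_mem (pad_mem hv)) _ (rankSeq_stick_mem hu) _ (residual_nonneg hv)
      fun j => abs_rankSeq_sub_le (fun i => (stick_mem (pad_mem hv) i).2)
        (fun i => (stick_mem hu i).2) (abs_stick_sub_le hu r)
  · rw [integral_add (integrable_const η) (i0.const_mul A), integral_const, probReal_univ,
      one_smul, integral_const_mul, integral_take (continuous_residual r), cubeMean_residual]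

/-- **Billingsley.** -/
theorem tendsto_topRatio {K : ℕ} {F : (Fin K → ℝ) → ℝ} (hF : Continuous F) :
    Tendsto (fun N : ℕ => (∑ n ∈ Icc 1 N, F fun j => topRatio n j) / N) atTop
      (𝓝 (stickLaw K F)) := by
  refine Metric.tendsto_nhds.2 fun ε hε => ?_
  obtain ⟨A, B, hA, hB0, hB, hgap⟩ := exists_gap_bound hF (show 0 < ε / 8 by positivity)
  obtain ⟨r, hr⟩ := exists_pow_lt_of_lt_one (show 0 < ε / 8 / (A + 1) by positivity)
    (show (1 / 2 : ℝ) < 1 by norm_num)
  have hAr : A * (1 / 2) ^ r ≤ ε / 8 := by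
    rw [lt_div_iff₀ (by positivity)] at hr
    linarith [pow_nonneg (show (0 : ℝ) ≤ 1 / 2 by norm_num) r]
  have hlaw := abs_rankTest_mean_sub_le hF hB hgap r
  have h1 := tendsto_drawSum r _ (continuous_rankTest hF r)
  have h2 := (tendsto_drawSum r _ (continuous_residual r)).const_mul A
  rw [cubeMean_residual] at h2
  filter_upwards [Metric.tendsto_nhds.1 h1 (ε / 8) (by positivity),
    h2.eventually (eventually_le_nhds (show A * (1 / 2) ^ r < ε / 4 by linarith)),
    (tendsto_const_div_atTop_nhds_zero_nat (2 * B)).eventually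
      (eventually_le_nhds (show (0 : ℝ) < ε / 8 by positivity)),
    eventually_ge_atTop 1] with N hN hres hB' hN1
  rw [Real.dist_eq] at hN ⊢
  have hN0 : (0 : ℝ) < N := Nat.cast_pos.2 hN1
  have hterm : ∀ n ∈ Icc 1 N, |(F fun j => topRatio n j) - sizeBiased r (rankTest F r) n| ≤
      (if n = 1 then 2 * B else 0) + ε / 8 + A * sizeBiased r (residual r) n := fun n hn => by
    have hn1 := (mem_Icc.1 hn).1
    have htop : (fun j : Fin K => topRatio n j) ∈ Set.Icc (0 : Fin K → ℝ) 1 :=
      ⟨fun j => (topRatio_mem (by omega) j).1, fun j => (topRatio_mem (by omega) j).2⟩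
    have hnn : 0 ≤ A * sizeBiased r (residual r) n := mul_nonneg hA (by
      have := sizeBiased_mono (n := n) (f := fun _ : Fin r → ℝ => (0 : ℝ)) (g := residual r)
        fun u hu => residual_nonneg hu.mem_Icc
      rwa [sizeBiased_const] at this)
    split_ifs with h
    · refine (abs_sub _ _).trans ?_
      linarith [hB _ htop, abs_sizeBiased_le (n := n) (f := rankTest F r) (B := B)
        fun u hu => hB _ (rankSeq_stick_mem (pad_mem hu))]
    · have key : ∀ u, IsDraw r n u →
          |(F fun j => topRatio n j) - rankTest F r u| ≤ ε / 8 + A * residual r u := fun u hu =>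
        hgap _ htop _ (rankSeq_stick_mem (pad_mem hu.mem_Icc)) _ (residual_nonneg hu.mem_Icc)
          fun j => by
            rw [abs_sub_comm]
            exact abs_rankSeq_stick_sub_topRatio_le hu (by omega) j
      have hlo := sizeBiased_mono (n := n)
        (f := fun u => (F fun j => topRatio n j) - rankTest F r u)
        (g := fun u => ε / 8 - -A * residual r u) fun u hu => by
          linarith [(abs_le.1 (key u hu)).2]
      have hhi := sizeBiased_mono (n := n)
        (g := fun u => (F fun j => topRatio n j) - rankTest F r u)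
        (f := fun u => -(ε / 8) - A * residual r u) fun u hu => by
          linarith [(abs_le.1 (key u hu)).1]
      simp only [sizeBiased_sub, sizeBiased_const_mul, sizeBiased_const] at hlo hhi
      rw [abs_le]
      constructor <;> linarith
  have hsum : |(∑ n ∈ Icc 1 N, F fun j => topRatio n j) - drawSum r (rankTest F r) N| ≤
      2 * B + ε / 8 * N + A * drawSum r (residual r) N := by
    rw [drawSum, ← sum_sub_distrib]
    refine (abs_sum_le_sum_abs _ _).trans ((sum_le_sum hterm).trans ?_)
    rw [sum_add_distrib, sum_add_distrib, sum_ite_eq', if_pos (mem_Icc.2 ⟨le_rfl, hN1⟩),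
      sum_const, Nat.card_Icc, Nat.add_sub_cancel, nsmul_eq_mul, ← mul_sum, drawSum]
    linarith
  have e : (∑ n ∈ Icc 1 N, F fun j => topRatio n j) / N - stickLaw K F =
      ((∑ n ∈ Icc 1 N, F fun j => topRatio n j) - drawSum r (rankTest F r) N) / N +
        (drawSum r (rankTest F r) N / N - cubeMean r (rankTest F r)) +
        (cubeMean r (rankTest F r) - stickLaw K F) := by
    field_simp
    ring
  rw [e]
  refine (abs_add_three _ _ _).trans_lt ?_
  have h3 : |(∑ n ∈ Icc 1 N, F fun j => topRatio n j) - drawSum r (rankTest F r) N| / N ≤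
      2 * B / N + ε / 8 + A * (drawSum r (residual r) N / N) := by
    refine (div_le_div_of_nonneg_right hsum hN0.le).trans_eq ?_
    field_simp
  rw [abs_div, abs_of_pos hN0]
  linarith

/-- The first draw is uniform. -/
theorem tendsto_firstDraw {g : ℝ → ℝ} (hg : Continuous g) :
    Tendsto (fun N : ℕ => (∑ n ∈ Icc 2 N, ∑ p ∈ n.primeFactors,
      (n.factorization p : ℝ) * Real.log p / Real.log n * g (Real.log p / Real.log n)) / N) atTop
      (𝓝 (∫ x in (0 : ℝ)..1, g x)) := by
  have hc : Continuous fun u : Fin 1 → ℝ => g (u 0) := hg.comp (continuous_apply 0)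
  have h := tendsto_drawSum 1 _ hc
  have e : cubeMean 1 (fun u => g (u 0)) = ∫ x in (0 : ℝ)..1, g x := by
    rw [cubeMean_succ hc]
    refine intervalIntegral.integral_congr fun x _ => ?_
    simp [cubeMean_eq]
  rw [e] at h
  have h' := h.sub (tendsto_const_div_atTop_nhds_zero_nat (g 0))
  rw [sub_zero] at h'
  refine h'.congr' ?_
  filter_upwards [eventually_ge_atTop 1] with N hN
  rw [drawSum, ← Finset.add_sum_Ioc_eq_sum_Icc hN, ← sub_div]
  congr 1
  rw [show sizeBiased 1 (fun u : Fin 1 → ℝ => g (u 0)) 1 = g 0 by simp [sizeBiased],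
    add_sub_cancel_left, ← Finset.Icc_add_one_left_eq_Ioc]
  refine sum_congr rfl fun n hn => ?_
  rw [sizeBiased, if_neg (by have := (mem_Icc.1 hn).1; omega)]
  refine sum_congr rfl fun p _ => ?_
  simp [sizeBiased]

end FA.PoissonDirichlet

end
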