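import Fermat.Agent.PoissonDirichlet.SizeBiased
import Mathlib.MeasureTheory.Constructions.Pi
import Mathlib.MeasureTheory.Integral.Bochner.Set
import Mathlib.MeasureTheory.Integral.Prod
import Mathlib.MeasureTheory.Integral.IntervalIntegral.Basic

/-!
# The theorem of Donnelly and Grimmett

The first `k` size-biased values of `log p / log m` are in the limit independent and uniform on
`[0, 1]`, on the average over `n ≤ N`.
-/

set_option autoImplicit false

noncomputable section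

namespace FA.PoissonDirichlet

open Finset Filter MeasureTheory
open FA.ErdosKac (primesUpTo mem_primesUpTo)
open scoped Topology

/-- The uniform measure on `[0, 1]`. -/
def unitMeasure : Measure ℝ := volume.restrict (Set.Icc 0 1)

instance : IsProbabilityMeasure unitMeasure :=
  ⟨by simp [unitMeasure]⟩

theorem restrict_Icc_eq_pi (k : ℕ) :
    (volume : Measure (Fin k → ℝ)).restrict (Set.Icc 0 1) = Measure.pi fun _ => unitMeasure := by
  rw [← Set.pi_univ_Icc, volume_pi, Measure.restrict_pi_pi]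
  rfl

/-- The mean of `f` over the unit cube. -/
def cubeMean (k : ℕ) (f : (Fin k → ℝ) → ℝ) : ℝ := ∫ u in Set.Icc 0 1, f u

theorem cubeMean_eq (k : ℕ) (f : (Fin k → ℝ) → ℝ) :
    cubeMean k f = ∫ u, f u ∂Measure.pi fun _ : Fin k => unitMeasure := by
  rw [cubeMean, restrict_Icc_eq_pi]

theorem continuous_cons_uncurry {k : ℕ} {f : (Fin (k + 1) → ℝ) → ℝ} (hf : Continuous f) :
    Continuous (Function.uncurry fun (t : ℝ) (v : Fin k → ℝ) => f (Fin.cons t v)) :=
  hf.comp (Continuous.finCons continuous_fst continuous_snd)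

theorem continuous_cubeMean_cons {k : ℕ} {f : (Fin (k + 1) → ℝ) → ℝ} (hf : Continuous f) :
    Continuous fun t : ℝ => cubeMean k fun v => f (Fin.cons t v) :=
  continuous_parametric_integral_of_continuous (continuous_cons_uncurry hf) isCompact_Icc

theorem cubeMean_succ {k : ℕ} {f : (Fin (k + 1) → ℝ) → ℝ} (hf : Continuous f) :
    cubeMean (k + 1) f = ∫ t in (0 : ℝ)..1, cubeMean k fun v => f (Fin.cons t v) := by
  have hint : Integrable (Function.uncurry fun (t : ℝ) (v : Fin k → ℝ) => f (Fin.cons t v))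
      (unitMeasure.prod (Measure.pi fun _ : Fin k => unitMeasure)) := by
    rw [← restrict_Icc_eq_pi, unitMeasure, Measure.prod_restrict]
    exact (continuous_cons_uncurry hf).continuousOn.integrableOn_compact
      (isCompact_Icc.prod isCompact_Icc)
  rw [intervalIntegral.integral_of_le zero_le_one, ← integral_Icc_eq_integral_Ioc]
  simp only [cubeMean_eq]
  rw [← (measurePreserving_piFinSuccAbove
    (fun _ : Fin (k + 1) => unitMeasure) 0).symm.integral_comp' (g := f)]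
  refine Eq.trans (integral_congr_ae (.of_forall fun x => ?_)) (integral_prod _ hint)
  simp only [MeasurableEquiv.piFinSuccAbove, Function.uncurry]
  refine congrArg f ?_
  exact Fin.insertNth_zero' x.1 x.2

/-- The sum over `n ≤ N` of the expectations. -/
def drawSum (k : ℕ) (f : (Fin k → ℝ) → ℝ) (N : ℕ) : ℝ := ∑ n ∈ Icc 1 N, sizeBiased k f n

theorem exists_bound {k : ℕ} {f : (Fin k → ℝ) → ℝ} (hf : Continuous f) :
    ∃ B : ℝ, 0 ≤ B ∧ ∀ u ∈ Set.Icc (0 : Fin k → ℝ) 1, |f u| ≤ B := by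
  obtain ⟨B, hB⟩ := isCompact_Icc.exists_bound_of_continuousOn hf.continuousOn
  exact ⟨max B 0, le_max_right _ _, fun u hu => (hB u hu).trans (le_max_left _ _)⟩

theorem abs_drawSum_le {k : ℕ} {f : (Fin k → ℝ) → ℝ} {B : ℝ}
    (h : ∀ u ∈ Set.Icc (0 : Fin k → ℝ) 1, |f u| ≤ B) (N : ℕ) : |drawSum k f N| ≤ B * N := by
  refine (abs_sum_le_sum_abs _ _).trans ((sum_le_card_nsmul _ _ B fun n _ =>
    abs_sizeBiased_le h).trans_eq ?_)
  rw [Nat.card_Icc, Nat.add_sub_cancel, nsmul_eq_mul, mul_comm]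

theorem abs_cubeMean_le {k : ℕ} {f : (Fin k → ℝ) → ℝ} {B : ℝ}
    (h : ∀ u ∈ Set.Icc (0 : Fin k → ℝ) 1, |f u| ≤ B) : |cubeMean k f| ≤ B := by
  have h1 := norm_setIntegral_le_of_norm_le_const (μ := (volume : Measure (Fin k → ℝ)))
    (s := Set.Icc (0 : Fin k → ℝ) 1) (f := f) (C := B) (by simp [Real.volume_Icc_pi]) h
  simpa [cubeMean, measureReal_def, Real.volume_Icc_pi] using h1

theorem abs_cubeMean_sub_le {k : ℕ} {f g : (Fin k → ℝ) → ℝ} (hf : Continuous f)
    (hg : Continuous g) {η : ℝ} (h : ∀ u ∈ Set.Icc (0 : Fin k → ℝ) 1, |f u - g u| ≤ η) :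
    |cubeMean k f - cubeMean k g| ≤ η := by
  rw [cubeMean, cubeMean, ← integral_sub (hf.continuousOn.integrableOn_compact isCompact_Icc)
    (hg.continuousOn.integrableOn_compact isCompact_Icc)]
  exact abs_cubeMean_le (f := fun u => f u - g u) h

/-- Uniform continuity in the first variable. -/
theorem exists_modulus {k : ℕ} {f : (Fin (k + 1) → ℝ) → ℝ} (hf : Continuous f) {η : ℝ}
    (hη : 0 < η) : ∃ δ : ℝ, 0 < δ ∧ ∀ s ∈ Set.Icc (0 : ℝ) 1, ∀ t ∈ Set.Icc (0 : ℝ) 1,
      |s - t| ≤ δ → ∀ v ∈ Set.Icc (0 : Fin k → ℝ) 1,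
        |f (Fin.cons s v) - f (Fin.cons t v)| ≤ η := by
  obtain ⟨δ, hδ, h⟩ := Metric.uniformContinuousOn_iff.1
    (isCompact_Icc.uniformContinuousOn_of_continuous hf.continuousOn) η hη
  refine ⟨δ / 2, half_pos hδ, fun s hs t ht hst v hv => (h _ (cons_mem_Icc hs hv) _
    (cons_mem_Icc ht hv) ?_).le⟩
  rw [dist_pi_lt_iff hδ]
  refine Fin.cases ?_ fun i => ?_
  · rw [Fin.cons_zero, Fin.cons_zero, Real.dist_eq]
    linarith
  · simpa using hδ

theorem exists_uniform {k : ℕ} (ih : ∀ g : (Fin k → ℝ) → ℝ, Continuous g →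
      Tendsto (fun N : ℕ => drawSum k g N / N) atTop (𝓝 (cubeMean k g)))
    {f : (Fin (k + 1) → ℝ) → ℝ} (hf : Continuous f) {ε : ℝ} (hε : 0 < ε) :
    ∃ C : ℝ, ∀ M : ℕ, ∀ t ∈ Set.Icc (0 : ℝ) 1,
      |drawSum k (fun v => f (Fin.cons t v)) M - M * cubeMean k fun v => f (Fin.cons t v)| ≤
        ε * M + C := by
  obtain ⟨δ, hδ, hmod⟩ := exists_modulus hf (show 0 < ε / 3 by positivity)
  obtain ⟨q, hq⟩ := exists_nat_gt (1 / δ)
  have hq0 : (0 : ℝ) < q := (by positivity : (0 : ℝ) < 1 / δ).trans hq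
  have hc : ∀ t : ℝ, Continuous fun v : Fin k → ℝ => f (Fin.cons t v) := fun t =>
    (continuous_cons_uncurry hf).comp (Continuous.prodMk_right t)
  obtain ⟨B, hB0, hB⟩ := exists_bound hf
  have hev : ∀ᶠ M : ℕ in atTop, ∀ i ∈ range (q + 1),
      |drawSum k (fun v => f (Fin.cons (i / q : ℝ) v)) M / M -
        cubeMean k fun v => f (Fin.cons (i / q : ℝ) v)| < ε / 3 :=
    (Finset.eventually_all _).2 fun i _ => by
      have h := Metric.tendsto_nhds.1 (ih _ (hc (i / q : ℝ))) (ε / 3) (by positivity)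
      simpa [Real.dist_eq] using h
  obtain ⟨M₀, hM₀⟩ := eventually_atTop.1 hev
  refine ⟨2 * B * M₀, fun M t ht => ?_⟩
  rcases le_or_gt M₀ M with hM | hM
  swap
  · refine le_add_of_nonneg_of_le (mul_nonneg hε.le (Nat.cast_nonneg M)) ?_
    have h1 := abs_drawSum_le (f := fun v => f (Fin.cons t v))
      (fun v hv => hB _ (cons_mem_Icc ht hv)) M
    have h2 := mul_le_mul_of_nonneg_left
      (abs_cubeMean_le (f := fun v => f (Fin.cons t v)) fun v hv => hB _ (cons_mem_Icc ht hv))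
      (Nat.cast_nonneg (α := ℝ) M)
    rw [← Nat.abs_cast M, ← abs_mul, Nat.abs_cast] at h2
    have h3 := mul_le_mul_of_nonneg_left (Nat.cast_le (α := ℝ).2 hM.le)
      (show 0 ≤ 2 * B by positivity)
    refine (abs_sub _ _).trans ?_
    linarith
  rcases Nat.eq_zero_or_pos M with rfl | hM0
  · simp [drawSum]
    positivity
  obtain ⟨i, hi⟩ : ∃ i, i = ⌊t * q⌋₊ := ⟨_, rfl⟩
  have h1 : (i : ℝ) ≤ t * q := hi ▸ Nat.floor_le (mul_nonneg ht.1 hq0.le)
  have h2 : t * q < i + 1 := hi ▸ Nat.lt_floor_add_one _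
  have hiq : (i : ℝ) ≤ q := h1.trans ((mul_le_mul_of_nonneg_right ht.2 hq0.le).trans (one_mul _).le)
  have hs : ((i : ℝ) / q) ∈ Set.Icc (0 : ℝ) 1 := ⟨by positivity, div_le_one_of_le₀ hiq hq0.le⟩
  have hst : |t - i / q| ≤ δ := by
    rw [div_lt_iff₀ hδ] at hq
    have e : t - i / q = (t * q - i) / q := by field_simp
    rw [e, abs_div, abs_of_pos hq0, div_le_iff₀ hq0, abs_le]
    constructor <;> linarith
  have ha : |drawSum k (fun v => f (Fin.cons t v)) M -
      drawSum k (fun v => f (Fin.cons (i / q : ℝ) v)) M| ≤ ε / 3 * M := by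
    rw [drawSum, drawSum, ← sum_sub_distrib]
    refine (abs_sum_le_sum_abs _ _).trans ((sum_le_card_nsmul _ _ (ε / 3) fun n _ =>
      abs_sizeBiased_sub_le (hmod t ht _ hs hst)).trans_eq ?_)
    rw [Nat.card_Icc, Nat.add_sub_cancel, nsmul_eq_mul, mul_comm]
  have hb := abs_cubeMean_sub_le (hc t) (hc (i / q : ℝ)) (hmod t ht _ hs hst)
  have hM' : (0 : ℝ) < M := Nat.cast_pos.2 hM0
  have hd := hM₀ M hM i (mem_range.2 (Nat.lt_succ_of_le (Nat.cast_le.1 hiq)))
  rw [div_sub' hM'.ne', abs_div, abs_of_pos hM', div_lt_iff₀ hM'] at hd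
  have hb' := mul_le_mul_of_nonneg_left hb hM'.le
  rw [← abs_of_pos hM', ← abs_mul, mul_sub, abs_of_pos hM'] at hb'
  have hC : 0 ≤ 2 * B * M₀ := by positivity
  rw [abs_le] at ha hb' ⊢
  rw [abs_lt] at hd
  constructor <;> linarith

end FA.PoissonDirichlet

end
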