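import Fermat.Agent.DivisorArcsine.Approx
import Mathlib.Analysis.SpecialFunctions.Integrals.Basic
import Mathlib.Topology.ContinuousMap.Weierstrass
import Mathlib.NumberTheory.Chebyshev

/-!
# Primes weighted by `log p`

The measure with mass `log p / (p log N)` at `log p / log N`, `p ≤ N`, tends to the uniform one
on `[0, 1]`. Also: pairs `(n, p)` with `p ∣ n`, and the excess of the higher prime powers.
-/

set_option autoImplicit false

noncomputable section

namespace FA.PoissonDirichlet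

open Finset Filter
open FA.ErdosKac (primesUpTo mem_primesUpTo)
open FA.DivisorArcsine (Approx primeMoment approx_primeMoment_zero)
open scoped Topology

/-- `∑_{p ≤ N} (log p / p) φ (log p / log N)` over `log N`. -/
def primeAvg (φ : ℝ → ℝ) (N : ℕ) : ℝ :=
  (∑ p ∈ primesUpTo N, Real.log p / p * φ (Real.log p / Real.log N)) / Real.log N

theorem tendsto_log_nat : Tendsto (fun N : ℕ => Real.log N) atTop atTop :=
  Real.tendsto_log_atTop.comp tendsto_natCast_atTop_atTop

theorem tendsto_div_of_approx {f : ℝ → ℝ} {n : ℕ} {c : ℝ} (hn : n ≠ 0) (hf : Approx f n c) :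
    Tendsto (fun N : ℕ => f N / Real.log N ^ n) atTop (𝓝 c) := by
  refine Metric.tendsto_nhds.2 fun ε hε => ?_
  obtain ⟨C, hC, h⟩ := hf (ε / 2) (half_pos hε)
  have hl := (tendsto_pow_atTop hn).comp tendsto_log_nat
  filter_upwards [hl.eventually_gt_atTop (2 * C / ε), hl.eventually_gt_atTop 0,
    eventually_ge_atTop 1] with N hN hpos hN1
  simp only [Function.comp_apply] at hN hpos
  have h' := h N (Nat.one_le_cast.2 hN1)
  rw [Real.dist_eq, div_sub' hpos.ne', abs_div, abs_of_pos hpos, div_lt_iff₀ hpos,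
    mul_comm (Real.log N ^ n)]
  rw [div_lt_iff₀ hε] at hN
  linarith

theorem tendsto_primeAvg_pow (j : ℕ) :
    Tendsto (primeAvg fun x => x ^ j) atTop (𝓝 ((j : ℝ) + 1)⁻¹) := by
  refine (tendsto_div_of_approx (Nat.succ_ne_zero j) (approx_primeMoment_zero j)).congr fun N => ?_
  simp only [primeAvg, primeMoment, Nat.floor_natCast, pow_zero, mul_one, div_pow, sum_div]
  refine sum_congr rfl fun p _ => ?_
  rw [pow_succ]
  ring

theorem abs_primeAvg_le {φ : ℝ → ℝ} {B : ℝ} (hφ : ∀ x ∈ Set.Icc (0 : ℝ) 1, |φ x| ≤ B) (N : ℕ) :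
    |primeAvg φ N| ≤ B * primeAvg (fun _ => 1) N := by
  simp only [primeAvg, mul_one, abs_div, abs_of_nonneg (Real.log_natCast_nonneg N)]
  rw [← mul_div_assoc, mul_sum]
  refine div_le_div_of_nonneg_right ((abs_sum_le_sum_abs _ _).trans (sum_le_sum fun p hp => ?_))
    (Real.log_natCast_nonneg N)
  obtain ⟨hp, hpN⟩ := mem_primesUpTo.1 hp
  rw [abs_mul, abs_of_nonneg (div_nonneg (Real.log_natCast_nonneg p) (Nat.cast_nonneg p)),
    mul_comm B]
  refine mul_le_mul_of_nonneg_left (hφ _ ⟨div_nonneg (Real.log_natCast_nonneg p)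
    (Real.log_natCast_nonneg N), div_le_one_of_le₀ (Real.log_le_log (Nat.cast_pos.2 hp.pos)
      (Nat.cast_le.2 hpN)) (Real.log_natCast_nonneg N)⟩)
    (div_nonneg (Real.log_natCast_nonneg p) (Nat.cast_nonneg p))

/-- **Uniformity of `log p / log N`.** -/
theorem tendsto_primeAvg {φ : ℝ → ℝ} (hφ : Continuous φ) :
    Tendsto (primeAvg φ) atTop (𝓝 (∫ x in (0 : ℝ)..1, φ x)) := by
  refine Metric.tendsto_nhds.2 fun ε hε => ?_
  obtain ⟨q, hq⟩ := exists_polynomial_near_of_continuousOn 0 1 φ hφ.continuousOn (ε / 4)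
    (by positivity)
  have hint : ∫ x in (0 : ℝ)..1, q.eval x =
      ∑ i ∈ range (q.natDegree + 1), q.coeff i * ((i : ℝ) + 1)⁻¹ := by
    simp only [Polynomial.eval_eq_sum_range]
    rw [intervalIntegral.integral_finsetSum fun i _ =>
      Continuous.intervalIntegrable (by fun_prop) _ _]
    refine sum_congr rfl fun i _ => ?_
    rw [intervalIntegral.integral_const_mul, integral_pow]
    simp
  have hpoly : Tendsto (primeAvg fun x => q.eval x) atTop (𝓝 (∫ x in (0 : ℝ)..1, q.eval x)) := by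
    rw [hint]
    refine (tendsto_finsetSum (range (q.natDegree + 1)) fun i _ =>
      (tendsto_primeAvg_pow i).const_mul (q.coeff i)).congr fun N => ?_
    simp only [primeAvg, Polynomial.eval_eq_sum_range, mul_sum, sum_div]
    rw [sum_comm]
    exact sum_congr rfl fun p _ => sum_congr rfl fun i _ => by ring
  have hone : ∀ᶠ N : ℕ in atTop, primeAvg (fun _ => 1) N ≤ 3 / 2 := by
    have h := tendsto_primeAvg_pow 0
    simp only [pow_zero, Nat.cast_zero, zero_add, inv_one] at h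
    exact h.eventually (eventually_le_nhds (by norm_num))
  have hd : |(∫ x in (0 : ℝ)..1, q.eval x) - ∫ x in (0 : ℝ)..1, φ x| ≤ ε / 4 := by
    rw [← intervalIntegral.integral_sub (q.continuous.intervalIntegrable _ _)
      (hφ.intervalIntegrable _ _)]
    rw [← Real.norm_eq_abs]
    refine (intervalIntegral.norm_integral_le_of_norm_le_const (C := ε / 4) fun x hx => ?_).trans_eq
      (by rw [sub_zero, abs_one, mul_one])
    rw [Set.uIoc_of_le zero_le_one] at hx
    exact (hq x ⟨hx.1.le, hx.2⟩).le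
  filter_upwards [Metric.tendsto_nhds.1 hpoly (ε / 4) (by positivity), hone] with N hN h1
  rw [Real.dist_eq] at hN ⊢
  have hdiff : primeAvg φ N - primeAvg (fun x => q.eval x) N =
      primeAvg (fun x => φ x - q.eval x) N := by
    simp only [primeAvg, mul_sub, sum_sub_distrib, sub_div]
  have h2 := abs_primeAvg_le (φ := fun x => φ x - q.eval x) (B := ε / 4)
    (fun x hx => by rw [abs_sub_comm]; exact (hq x hx).le) N
  rw [← hdiff] at h2
  have h3 := h2.trans (mul_le_mul_of_nonneg_left h1 (by positivity))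
  rw [abs_lt] at hN ⊢
  obtain ⟨a, b⟩ := abs_le.1 h3
  obtain ⟨c, d⟩ := abs_le.1 hd
  constructor <;> linarith

/-- Pairs `(n, p)` with `p ∣ n ≤ N` are pairs `(p, m)` with `p m ≤ N`. -/
theorem sum_primeFactors_eq (N : ℕ) (G : ℕ → ℕ → ℝ) :
    ∑ n ∈ Icc 1 N, ∑ p ∈ n.primeFactors, G p (n / p) =
      ∑ p ∈ primesUpTo N, ∑ m ∈ Icc 1 (N / p), G p m := by
  rw [sum_sigma', sum_sigma']
  refine sum_nbij' (fun x => ⟨x.2, x.1 / x.2⟩) (fun y => ⟨y.1 * y.2, y.1⟩) ?_ ?_ ?_ ?_ ?_
  · intro x hx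
    simp only [mem_sigma, mem_Icc, Nat.mem_primeFactors] at hx ⊢
    obtain ⟨⟨h1, h2⟩, hp, hd, -⟩ := hx
    exact ⟨mem_primesUpTo.2 ⟨hp, (Nat.le_of_dvd h1 hd).trans h2⟩,
      Nat.div_pos (Nat.le_of_dvd h1 hd) hp.pos, Nat.div_le_div_right h2⟩
  · intro y hy
    simp only [mem_sigma, mem_Icc, mem_primesUpTo] at hy ⊢
    obtain ⟨⟨hp, -⟩, h1, h2⟩ := hy
    have h := (Nat.le_div_iff_mul_le hp.pos).1 h2
    exact ⟨⟨Nat.mul_pos hp.pos h1, by rwa [mul_comm]⟩,
      Nat.mem_primeFactors.2 ⟨hp, dvd_mul_right _ _, (Nat.mul_pos hp.pos h1).ne'⟩⟩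
  · intro x hx
    simp only [mem_sigma, Nat.mem_primeFactors] at hx
    obtain ⟨n, p⟩ := x
    simp only [Nat.mul_div_cancel' hx.2.2.1]
  · intro y hy
    simp only [mem_sigma, mem_primesUpTo] at hy
    obtain ⟨p, m⟩ := y
    simp only [Nat.mul_div_cancel_left m hy.1.1.pos]
  · intro x _
    rfl

/-- `∑_{p ≤ N} log p ≤ (log 4) N`. -/
theorem sum_log_primes_le (N : ℕ) : ∑ p ∈ primesUpTo N, Real.log p ≤ Real.log 4 * N := by
  refine le_trans (le_of_eq ?_) (Chebyshev.theta_le_log4_mul_x (Nat.cast_nonneg N))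
  rw [Chebyshev.theta_eq_sum_primesLE_log]
  refine sum_congr ?_ fun _ _ => rfl
  ext p
  rw [mem_primesUpTo, Nat.mem_primesLE, and_comm]

/-- `∑_{n ≤ N} (log n - ∑_{p ∣ n} log p) = O (N)`. -/
theorem exists_excess_le : ∃ C : ℝ, 0 ≤ C ∧ ∀ N : ℕ,
    ∑ n ∈ Icc 1 N, (Real.log n - ∑ p ∈ n.primeFactors, Real.log p) ≤ C * N := by
  obtain ⟨C, hC⟩ := ErdosKac.exists_abs_sum_log_div_sub_le
  have hC0 : 0 ≤ C := (abs_nonneg _).trans (hC 1 le_rfl)
  refine ⟨C + Real.log 4, add_nonneg hC0 (Real.log_nonneg (by norm_num)), fun N => ?_⟩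
  rcases Nat.eq_zero_or_pos N with rfl | hN
  · simp
  rw [sum_sub_distrib, sum_primeFactors_eq N fun p _ => Real.log p]
  have h1 : ∑ n ∈ Icc 1 N, Real.log n ≤ N * Real.log N := by
    refine (sum_le_card_nsmul _ _ (Real.log N) fun n hn => ?_).trans_eq ?_
    · exact Real.log_le_log (Nat.cast_pos.2 (mem_Icc.1 hn).1) (Nat.cast_le.2 (mem_Icc.1 hn).2)
    · rw [Nat.card_Icc, Nat.add_sub_cancel, nsmul_eq_mul]
  have h2 : ∑ p ∈ primesUpTo N, ((N : ℝ) / p * Real.log p - Real.log p) ≤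
      ∑ p ∈ primesUpTo N, ∑ _m ∈ Icc 1 (N / p), Real.log p := by
    refine sum_le_sum fun p hp => ?_
    have hp0 := (mem_primesUpTo.1 hp).1.pos
    rw [sum_const, Nat.card_Icc, Nat.add_sub_cancel, nsmul_eq_mul,
      show (N : ℝ) / p * Real.log p - Real.log p = ((N : ℝ) / p - 1) * Real.log p by ring]
    refine mul_le_mul_of_nonneg_right ?_ (Real.log_natCast_nonneg p)
    rw [sub_le_iff_le_add, div_le_iff₀ (Nat.cast_pos.2 hp0)]
    exact_mod_cast (by
      have := Nat.div_add_mod N p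
      have := Nat.mod_lt N hp0
      rw [add_mul, one_mul, mul_comm (N / p) p]
      omega : N ≤ (N / p + 1) * p)
  rw [sum_sub_distrib] at h2
  have h3 : ∑ p ∈ primesUpTo N, (N : ℝ) / p * Real.log p =
      N * ∑ p ∈ primesUpTo N, Real.log p / p := by
    rw [mul_sum]
    exact sum_congr rfl fun p _ => by ring
  have h4 := mul_le_mul_of_nonneg_left (abs_le.1 (hC N hN)).1 (Nat.cast_nonneg (α := ℝ) N)
  have h5 := sum_log_primes_le N
  linarith

end FA.PoissonDirichlet

end
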