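import Fermat.Agent.PoissonDirichlet.Mertens
import Mathlib.Data.Fin.Tuple.Basic
import Mathlib.Topology.Order.Compact

/-!
# The size-biased order of the prime factors

The prime factors of `n`, with multiplicity, are drawn without replacement, `p` with probability
proportional to `log p`; `sizeBiased k f n` is the expectation of `f` at the first `k` values of
`log p / log m`, `m` being what was left before the draw of `p` (the values are `0` after `m = 1`).
-/

set_option autoImplicit false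

noncomputable section

namespace FA.PoissonDirichlet

open Finset

/-- The expectation of `f` over the first `k` size-biased draws from the prime factors of `n`. -/
def sizeBiased : (k : ℕ) → ((Fin k → ℝ) → ℝ) → ℕ → ℝ
  | 0, f, _ => f Fin.elim0
  | k + 1, f, n =>
    if n ≤ 1 then sizeBiased k (fun v => f (Fin.cons 0 v)) n
    else ∑ p ∈ n.primeFactors, (n.factorization p : ℝ) * Real.log p / Real.log n *
      sizeBiased k (fun v => f (Fin.cons (Real.log p / Real.log n) v)) (n / p)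

/-- The possible outcomes of the draws. -/
def IsDraw : (k : ℕ) → ℕ → (Fin k → ℝ) → Prop
  | 0, _, _ => True
  | k + 1, n, u => (n ≤ 1 ∧ u 0 = 0 ∧ IsDraw k n (Fin.tail u)) ∨
      (1 < n ∧ ∃ p ∈ n.primeFactors, u 0 = Real.log p / Real.log n ∧
        IsDraw k (n / p) (Fin.tail u))

theorem log_pos_of_one_lt {n : ℕ} (hn : 1 < n) : 0 < Real.log n :=
  Real.log_pos (Nat.one_lt_cast.2 hn)

theorem log_div_mem {n p : ℕ} (hp : p ∈ n.primeFactors) :
    Real.log p / Real.log n ∈ Set.Icc (0 : ℝ) 1 := by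
  obtain ⟨hpp, hd, hn⟩ := Nat.mem_primeFactors.1 hp
  exact ⟨div_nonneg (Real.log_natCast_nonneg p) (Real.log_natCast_nonneg n),
    div_le_one_of_le₀ (Real.log_le_log (Nat.cast_pos.2 hpp.pos)
      (Nat.cast_le.2 (Nat.le_of_dvd (Nat.pos_of_ne_zero hn) hd))) (Real.log_natCast_nonneg n)⟩

theorem cons_mem_Icc {k : ℕ} {x : ℝ} (hx : x ∈ Set.Icc (0 : ℝ) 1) {v : Fin k → ℝ}
    (hv : v ∈ Set.Icc (0 : Fin k → ℝ) 1) :
    (Fin.cons x v : Fin (k + 1) → ℝ) ∈ Set.Icc (0 : Fin (k + 1) → ℝ) 1 :=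
  ⟨fun i => Fin.cases hx.1 (fun j => hv.1 j) i, fun i => Fin.cases hx.2 (fun j => hv.2 j) i⟩

theorem IsDraw.mem_Icc : ∀ {k n : ℕ} {u : Fin k → ℝ}, IsDraw k n u →
    u ∈ Set.Icc (0 : Fin k → ℝ) 1
  | 0, _, u, _ => ⟨fun i => i.elim0, fun i => i.elim0⟩
  | k + 1, n, u, h => by
    rw [← Fin.cons_self_tail u]
    rcases h with ⟨-, h0, ht⟩ | ⟨-, p, hp, h0, ht⟩
    · exact cons_mem_Icc (by rw [h0]; exact ⟨le_rfl, zero_le_one⟩) ht.mem_Icc
    · exact cons_mem_Icc (h0 ▸ log_div_mem hp) ht.mem_Icc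

theorem log_eq_sum_factorization (n : ℕ) :
    Real.log n = ∑ p ∈ n.primeFactors, (n.factorization p : ℝ) * Real.log p := by
  rw [Real.log_nat_eq_sum_factorization, Finsupp.sum, Nat.support_factorization]

theorem weight_nonneg (n p : ℕ) : 0 ≤ (n.factorization p : ℝ) * Real.log p / Real.log n :=
  div_nonneg (mul_nonneg (Nat.cast_nonneg _) (Real.log_natCast_nonneg p))
    (Real.log_natCast_nonneg n)

theorem sum_weight {n : ℕ} (hn : 1 < n) :
    ∑ p ∈ n.primeFactors, (n.factorization p : ℝ) * Real.log p / Real.log n = 1 := by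
  rw [← sum_div, ← log_eq_sum_factorization, div_self (log_pos_of_one_lt hn).ne']

theorem sizeBiased_mono : ∀ {k n : ℕ} {f g : (Fin k → ℝ) → ℝ},
    (∀ u, IsDraw k n u → f u ≤ g u) → sizeBiased k f n ≤ sizeBiased k g n
  | 0, _, f, g, h => h _ trivial
  | k + 1, n, f, g, h => by
    rw [sizeBiased, sizeBiased]
    split_ifs with hn
    · exact sizeBiased_mono fun v hv => h _ (.inl ⟨hn, Fin.cons_zero _ _, by rwa [Fin.tail_cons]⟩)
    · exact sum_le_sum fun p hp => mul_le_mul_of_nonneg_left (sizeBiased_mono fun v hv => h _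
        (.inr ⟨not_le.1 hn, p, hp, Fin.cons_zero _ _, by rwa [Fin.tail_cons]⟩)) (weight_nonneg n p)

theorem sizeBiased_sub : ∀ (k n : ℕ) (f g : (Fin k → ℝ) → ℝ),
    sizeBiased k (fun u => f u - g u) n = sizeBiased k f n - sizeBiased k g n
  | 0, _, f, g => rfl
  | k + 1, n, f, g => by
    simp only [sizeBiased, sizeBiased_sub k, mul_sub, sum_sub_distrib]
    split_ifs <;> rfl

theorem sizeBiased_const_mul : ∀ (k n : ℕ) (c : ℝ) (f : (Fin k → ℝ) → ℝ),
    sizeBiased k (fun u => c * f u) n = c * sizeBiased k f n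
  | 0, _, c, f => rfl
  | k + 1, n, c, f => by
    simp only [sizeBiased, sizeBiased_const_mul k]
    split_ifs
    · rfl
    · rw [mul_sum]
      exact sum_congr rfl fun p _ => by ring

theorem sizeBiased_const : ∀ (k n : ℕ) (c : ℝ), sizeBiased k (fun _ => c) n = c
  | 0, _, c => rfl
  | k + 1, n, c => by
    rw [sizeBiased]
    split_ifs with hn
    · exact sizeBiased_const k n c
    · simp only [sizeBiased_const k, ← sum_mul, sum_weight (not_le.1 hn), one_mul]

theorem abs_sizeBiased_le {k n : ℕ} {f : (Fin k → ℝ) → ℝ} {B : ℝ}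
    (h : ∀ u ∈ Set.Icc (0 : Fin k → ℝ) 1, |f u| ≤ B) : |sizeBiased k f n| ≤ B := by
  rw [abs_le]
  constructor
  · have := sizeBiased_mono (n := n) (f := fun _ => -B) (g := f) fun u hu =>
      (abs_le.1 (h u hu.mem_Icc)).1
    rwa [sizeBiased_const] at this
  · have := sizeBiased_mono (n := n) (f := f) (g := fun _ => B) fun u hu =>
      (abs_le.1 (h u hu.mem_Icc)).2
    rwa [sizeBiased_const] at this

theorem abs_sizeBiased_sub_le {k n : ℕ} {f g : (Fin k → ℝ) → ℝ} {η : ℝ}
    (h : ∀ u ∈ Set.Icc (0 : Fin k → ℝ) 1, |f u - g u| ≤ η) :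
    |sizeBiased k f n - sizeBiased k g n| ≤ η := by
  rw [← sizeBiased_sub]
  exact abs_sizeBiased_le h

end FA.PoissonDirichlet

end
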